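import Fermat.Agent.Dlog.Final
import Fermat.Agent.GoodRed.GenusAll

/-!
# `dlog f` is a cusp form mod `p` (concrete version)
-/

set_option autoImplicit false

noncomputable section

open ModularCurve HahnSeries Module Polynomial AlgebraicCurve
open Fermat.Agent.X0Emb Fermat.Agent.GaussVal Fermat.Agent.Deuring Fermat.Agent.FF
open Fermat.Agent.GoodRed Fermat.Agent.S44w
open Fermat.Agent.S18aux (DegThm DegEq bar_eq modG)
open scoped MatrixGroups IntermediateField Fermat.Agent.GaussVal

namespace Fermat.Agent.Dlog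

theorem uSer_ne_zero {k : Type*} [Field k] {h : LaurentSeries k} (h0 : h ≠ 0) :
    uSer k h ≠ 0 := by
  rw [uSer, neg_div, Ne, neg_eq_zero, div_eq_zero_iff]
  push Not
  exact ⟨mul_ne_zero (mul_ne_zero h0 jq_ne_zero) jq_sub_ne_zero, Igusa.theta_jq_ne_zero k⟩

theorem genus_le_finrank (N : ℕ) [NeZero N] :
    genusFF X0Emb.KK (modularFunctionFieldBar N) ≤ finrank ℤ (LZ N) := by
  have h1 := genusFF_bar N (Fermat.Agent.TEll.isFF_bar N)
  have h2 := Fermat.Agent.S20.result N
  have h3 : genusFF X0Emb.KK (modularFunctionFieldBar N) =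
      finrank ℂ (CuspForm (CongruenceSubgroup.Gamma0 N) 2) := by
    rw [← h2] at h1
    exact_mod_cast h1
  rw [h3]
  exact Fermat.Agent.S44w.finrank_le

variable {p : ℕ} {A : ValuationSubring X0Emb.KK} (hp : p.Prime) (hA : A.LiesOverPrime p)
variable {N : ℕ} [NeZero N]

include hp hA in
theorem exists_cuspLike (hd : DegEq A N)
    (H2 : genusFF X0Emb.KK (modularFunctionFieldBar N) ≤ genusFF (IsLocalRing.ResidueField A)
      (modularFunctionFieldFullC (IsLocalRing.ResidueField A) N)) (h : LZ N)
    (h0 : redL (IsLocalRing.ResidueField A) h ≠ 0) :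
    ∃ u : modularFunctionFieldFullC (IsLocalRing.ResidueField A) N,
      (u : LaurentSeries (IsLocalRing.ResidueField A)) =
        uSer (IsLocalRing.ResidueField A) (redL (IsLocalRing.ResidueField A) h) ∧
      CuspLike (IsLocalRing.ResidueField A) (jB A N) u := by
  have i1 := hd.isFF
  have i2 := hd.isFF'
  have hh0 : h ≠ 0 := by
    rintro rfl
    exact h0 (map_zero _)
  obtain ⟨R, -⟩ := (modG hp hA hd).exists_redMap_of_le H2
  have hjR := red_jqModC (A := A)
  have hjO : jEl X0Emb.KK (modularFunctionFieldBar N) N (bar_eq N) ∈ (modG hp hA hd).O :=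
    (S18aux.mem_modG_O hp hA).mpr hjR.choose
  have hρj : (modG hp hA hd).ρ ⟨_, hjO⟩ = jB A N := by
    apply Subtype.ext
    exact (S18aux.coe_modG_ρ' hp hA hjO hjR.choose rfl).trans hjR.choose_spec
  have huR := red_uSer' (A := A) h
  have huO : uEl h ∈ (modG hp hA hd).O := (S18aux.mem_modG_O hp hA).mpr huR.choose
  have hρu : ((modG hp hA hd).ρ ⟨_, huO⟩ : LaurentSeries (IsLocalRing.ResidueField A)) =
      uSer (IsLocalRing.ResidueField A) (redL (IsLocalRing.ResidueField A) h) :=
    (S18aux.coe_modG_ρ' hp hA huO huR.choose rfl).trans huR.choose_spec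
  have hρu0 : (modG hp hA hd).ρ ⟨_, huO⟩ ≠ 0 := by
    intro h1
    rw [h1, ZeroMemClass.coe_zero] at hρu
    exact uSer_ne_zero h0 hρu.symm
  have hcl := cuspLike_uEl h hh0
  have hjF : (X0Emb.embData N).jF = jEl X0Emb.KK (modularFunctionFieldBar N) N (bar_eq N) :=
    Subtype.ext (coe_jF N)
  rw [hjF] at hcl
  have hjt : Transcendental (IsLocalRing.ResidueField A) ((modG hp hA hd).ρ ⟨_, hjO⟩) := by
    rw [hρj]; exact transcendental_jEl _ _ N rfl
  have hred := hcl.reduction R hjO hjt (by rw [hρj]; exact hd.2) huO hρu0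
  rw [hρj] at hred
  exact ⟨_, hρu, hred⟩

include hp hA in
/-- **(G2)** A function on the special fibre of `X₀(N)` whose divisor is divisible by `p` has a
logarithmic derivative which is a cusp form of weight two modulo `p`. -/
theorem dlog_mem_span (hp5 : 5 ≤ p) (hN : ¬ p ∣ N)
    {f : modularFunctionFieldFullC (IsLocalRing.ResidueField A) N} (hf : f ≠ 0)
    (hord : ∀ P : Place (IsLocalRing.ResidueField A)
      (modularFunctionFieldFullC (IsLocalRing.ResidueField A) N), (p : ℤ) ∣ P.ord f) :
    dlog (f : LaurentSeries (IsLocalRing.ResidueField A)) ∈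
      Submodule.span (IsLocalRing.ResidueField A)
        (Set.range (redL (IsLocalRing.ResidueField A) (M := N))) := by
  haveI : Fact p.Prime := ⟨hp⟩
  haveI : CharP (IsLocalRing.ResidueField A) p := TEll.charP_residueField A p hA
  have hN0 : N ≠ 0 := NeZero.ne N
  have hd : DegEq A N := degEq_all hp hA hN0 hN
  have H2 := genus_le_all hp hA N hN
  have i1 := hd.isFF
  have i2 := hd.isFF'
  have h1728 : (1728 : IsLocalRing.ResidueField A) ≠ 0 := by
    have h := S18aux.natCast_ne_zero hp hA (m := 1728) (fun h => by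
      have h1 : (1728 : ℕ) = 2 ^ 6 * 3 ^ 3 := by norm_num
      rw [h1, hp.dvd_mul] at h
      rcases h with h | h
      · have := Nat.le_of_dvd (by norm_num) (hp.dvd_of_dvd_pow h)
        omega
      · have := Nat.le_of_dvd (by norm_num) (hp.dvd_of_dvd_pow h)
        omega)
    exact_mod_cast h
  exact dlog_mem_span_abs p (j := jB A N) (coe_jEl _ _ N rfl)
    (isSeparable_jB hp hA N (S18aux.natCast_ne_zero hp hA hN) (degThm_res hp hA hN0 hN) hd) h1728
    (fun h h0 => exists_cuspLike hp hA hd H2 h h0)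
    ((modG hp hA hd).genus_le.trans (genus_le_finrank N)) hf hord

end Fermat.Agent.Dlog
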