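import Fermat.Agent.GalRep.JZ8_Div
import Fermat.Agent.S21.PeriodMapLinear
import Fermat.Agent.Igusa.Theta
import Fermat.Agent.ModFun.Conv
import Fermat.Agent.ModFun.CharFun
import Fermat.Agent.Cofaith.Char
import Fermat.Prelude.Thm_CongruenceSubgroup_one_mem_strictPeriods_Gamma0
import Fermat.Agent.S44w.Red

/-!
# The modular function `h E₄ E₆ / Δ` attached to a cusp form `h` of weight two
-/

set_option autoImplicit false

open UpperHalfPlane hiding I
open Function Filter Topology ModularForm CongruenceSubgroup ModularCurve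
open scoped Manifold MatrixGroups

noncomputable section

namespace Fermat.Agent.Dlog

open Fermat.Agent.X0Emb Fermat.Agent.JLevelOne Fermat.Agent.ModFun Fermat.Agent.GalRep

local notation "𝕢" => Periodic.qParam

/-! ### Laurent expansions of functions vanishing at infinity -/

theorem tendsto_qParam {h : ℝ} (hh : 0 < h) :
    Tendsto (fun τ : ℍ => 𝕢 h (τ : ℂ)) atImInfty (𝓝 0) := by
  have h1 : Tendsto (𝕢 h) (comap Complex.im atTop) (𝓝 0) :=
    (Periodic.qParam_tendsto hh).mono_right nhdsWithin_le_nhds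
  exact h1.comp UpperHalfPlane.tendsto_coe_atImInfty

theorem order_pos_of_zero {h : ℝ} (hh : 0 < h) {f : ℍ → ℂ} {G : LaurentSeries ℂ}
    (hf : LExp h f G) (hG : G ≠ 0) (h0 : IsZeroAtImInfty f) : 0 < G.order := by
  by_contra hle
  push Not at hle
  have hm : ∀ n < G.order, G.coeff n = 0 := fun n hn ↦ HahnSeries.coeff_eq_zero_of_lt_order hn
  have hsum : Summable fun k : ℕ => ‖G.coeff (G.order + k) • 𝕢 h (UpperHalfPlane.I : ℍ) ^ k‖ :=
    (hf.hasSum_nat hm UpperHalfPlane.I).summable.norm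
  have h1 : Tendsto (fun τ : ℍ => ∑' k : ℕ, G.coeff (G.order + k) • 𝕢 h (τ : ℂ) ^ k) atImInfty
      (𝓝 (∑' k : ℕ, G.coeff (G.order + k) • (0 : ℂ) ^ k)) := by
    refine tendsto_tsum_of_dominated_convergence hsum (fun k => ?_) ?_
    · exact ((tendsto_qParam hh).pow k).const_smul _
    · filter_upwards [(atImInfty_mem _).mpr ⟨1, fun τ hτ => hτ⟩] with τ hτ k
      have hτ' : (1 : ℝ) ≤ τ.im := hτ
      rw [norm_smul, norm_smul, norm_pow, norm_pow]
      refine mul_le_mul_of_nonneg_left ?_ (norm_nonneg _)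
      exact pow_le_pow_left₀ (norm_nonneg _) (X0Deg.norm_q_anti hh (by simpa using hτ')) k
  have h2 : (∑' k : ℕ, G.coeff (G.order + k) • (0 : ℂ) ^ k) = G.coeff G.order := by
    rw [tsum_eq_single 0]
    · simp
    · intro k hk
      rw [zero_pow hk, smul_zero]
  have h3 : (fun τ : ℍ => ∑' k : ℕ, G.coeff (G.order + k) • 𝕢 h (τ : ℂ) ^ k) =
      fun τ : ℍ => 𝕢 h (τ : ℂ) ^ (-G.order) * f τ := by
    funext τ
    exact (hf.hasSum_nat hm τ).tsum_eq
  rw [h2, h3] at h1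
  have h4 : Tendsto (fun τ : ℍ => 𝕢 h (τ : ℂ) ^ (-G.order) * f τ) atImInfty (𝓝 0) := by
    obtain ⟨n, hn⟩ : ∃ n : ℕ, -G.order = n := ⟨(-G.order).toNat, by omega⟩
    rw [hn]
    simp only [zpow_natCast]
    have h5 := ((tendsto_qParam hh).pow n).mul (show Tendsto f atImInfty (𝓝 0) from h0)
    simpa using h5
  have h5 := tendsto_nhds_unique h1 h4
  exact hG (HahnSeries.coeff_order_eq_zero.mp h5)

/-! ### the function `f E₄ E₆ / Δ` -/

/-- `f E₄ E₆ / Δ` -/
def UFun (f : ℍ → ℂ) : ℍ → ℂ := f * E₄ * E₆ * fun τ => (discriminant τ)⁻¹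

theorem UFun_apply (f : ℍ → ℂ) (τ : ℍ) :
    UFun f τ = f τ * E₄ τ * E₆ τ * (discriminant τ)⁻¹ := rfl

theorem UFun_mdiff {f : ℍ → ℂ} (hf : MDiff f) : MDiff (UFun f) :=
  ((hf.mul E₄.holo').mul E₆.holo').mul mdiff_disc_inv

theorem UFun_smul (f : ℍ → ℂ) (σ : SL(2, ℤ)) (τ : ℍ) :
    UFun f (σ • τ) = UFun (f ∣[(2 : ℤ)] σ) τ := by
  have hd := denom_ne_zero (σ : GL (Fin 2) ℝ) τ
  have h0 := discriminant_ne_zero τ
  rw [UFun_apply, UFun_apply, discriminant_smul, slash_apply_form E₄ σ τ,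
    slash_apply_form E₆ σ τ, SL_slash_apply]
  have e1 : denom σ τ ^ (12 : ℤ) = denom σ τ ^ (4 : ℤ) * denom σ τ ^ (6 : ℤ) *
      denom σ τ ^ (2 : ℤ) := by
    rw [← zpow_add₀ hd, ← zpow_add₀ hd]; norm_num
  have h4 : denom σ τ ^ (4 : ℤ) ≠ 0 := zpow_ne_zero _ hd
  have h6 : denom σ τ ^ (6 : ℤ) ≠ 0 := zpow_ne_zero _ hd
  have h2 : denom σ τ ^ (2 : ℤ) ≠ 0 := zpow_ne_zero _ hd
  rw [e1, zpow_neg]
  field_simp

theorem UFun_ne_zero {f : ℍ → ℂ} (hf : MDiff f) (h0 : f ≠ 0) : UFun f ≠ 0 := by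
  intro h
  have h1 : (⟨f, hf⟩ : Hol) * ⟨E₄, E₄.holo'⟩ * ⟨E₆, E₆.holo'⟩ * ⟨_, mdiff_disc_inv⟩ = 0 :=
    Subtype.ext h
  have hE : ∀ {g : ℍ → ℂ} (hg : MDiff g), g ≠ 0 → (⟨g, hg⟩ : Hol) ≠ 0 := fun hg h0 h =>
    h0 (congrArg Subtype.val h)
  refine mul_ne_zero (mul_ne_zero (mul_ne_zero (hE hf h0) (hE _ ?_)) (hE _ ?_)) (hE _ ?_) h1
  · intro h2
    obtain ⟨τ, hτ⟩ := jFun_surjective 1
    have h3 := congrFun h2 τ
    rw [jFun] at hτ
    change E₄ τ = 0 at h3
    rw [h3] at hτ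
    norm_num at hτ
  · intro h2
    obtain ⟨τ, hτ⟩ := jFun_surjective 1
    have h3 := congrFun h2 τ
    have h4 := jFun_sub_1728 τ
    change E₆ τ = 0 at h3
    rw [h3, hτ] at h4
    norm_num at h4
  · intro h2
    have h3 := congrFun h2 UpperHalfPlane.I
    exact inv_ne_zero (discriminant_ne_zero _) h3

section Form

variable {N : ℕ} [NeZero N] (f : CuspForm (Gamma0 N) 2)

theorem UFun_growth : ModGrowth (UFun f) := by
  intro σ
  have h1 : (fun τ => UFun f (σ • τ)) = UFun ((f : ℍ → ℂ) ∣[(2 : ℤ)] σ) := by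
    funext τ; exact UFun_smul _ σ τ
  show GrowthInf _
  rw [h1]
  have hb : IsBoundedAtImInfty ((f : ℍ → ℂ) ∣[(2 : ℤ)] σ) :=
    (Fermat.Agent.S21per.cusp_slash_zero f σ).boundedAtFilter
  refine (((GrowthInf.of_bounded hb).mul (GrowthInf.of_bounded ?_)).mul
    (GrowthInf.of_bounded ?_)).mul growthInf_disc_inv
  · exact ModularFormClass.bdd_at_infty E₄
  · exact ModularFormClass.bdd_at_infty E₆

theorem UFun_inv (γ : SL(2, ℤ)) (hγ : γ ∈ Gamma0 N) (τ : ℍ) : UFun f (γ • τ) = UFun f τ := by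
  rw [UFun_smul, Fermat.Agent.S21per.cusp_slash_mem f hγ]

theorem UFun_hasChar : HasChar N 1 (UFun f) where
  mdiff := UFun_mdiff f.holo'
  growth := UFun_growth f
  smul γ τ := by
    rw [UFun_inv f _ γ.2 τ]; simp

omit [NeZero N] in
theorem parChar_one : ParChar N 1 where
  par γ _ := by simp
  fin γ m _ _ := by simp

/-- the function as an element of `Hol` -/
def UHol : Hol := ⟨UFun f, UFun_mdiff f.holo'⟩

omit [NeZero N] in
theorem UHol_apply (τ : ℍ) : (UHol f : ℍ → ℂ) τ = UFun f τ := rfl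

omit [NeZero N] in
theorem UHol_smul_apply (σ : SL(2, ℤ)) (τ : ℍ) :
    (σ • UHol f : Hol) τ = UFun ((f : ℍ → ℂ) ∣[(2 : ℤ)] σ⁻¹) τ := by
  rw [Hol.smul_apply, UHol_apply, UFun_smul]

omit [NeZero N] in
theorem UHol_ne_zero (hf : f ≠ 0) : UHol f ≠ 0 := by
  intro h
  refine UFun_ne_zero f.holo' (fun h0 => hf ?_) (congrArg Subtype.val h)
  exact DFunLike.coe_injective h0

/-- vanishing at the elliptic points -/
theorem UFun_eq_zero_of_E4 (g : ℍ → ℂ) {τ : ℍ} (h : jFun τ = 0) : UFun g τ = 0 := by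
  have h4 : E₄ τ = 0 := by
    rw [jFun, div_eq_zero_iff] at h
    exact pow_eq_zero_iff (three_ne_zero) |>.mp (h.resolve_right (discriminant_ne_zero τ))
  rw [UFun_apply, h4]; ring

theorem UFun_eq_zero_of_E6 (g : ℍ → ℂ) {τ : ℍ} (h : jFun τ = 1728) : UFun g τ = 0 := by
  have h1 := jFun_sub_1728 τ
  rw [h, sub_self, eq_comm, div_eq_zero_iff] at h1
  have h6 : E₆ τ = 0 :=
    pow_eq_zero_iff (two_ne_zero) |>.mp (h1.resolve_right (discriminant_ne_zero τ))
  rw [UFun_apply, h6]; ring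

/-- the order of the expansions at the cusps -/
theorem one_sub_le_order (hf : f ≠ 0) (σ : SL(2, ℤ)) {G : LaurentSeries ℂ}
    (hG : LExp N (σ • UHol f : Hol) G) : 1 - (N : ℤ) ≤ G.order := by
  have hN : (0 : ℝ) < N := by exact_mod_cast Nat.pos_of_ne_zero (NeZero.ne N)
  have hΔ : LExp N discriminant (qExpand ℂ N (S28aux.deltaC ℂ)) := by
    have h1 : LExp 1 discriminant (S28aux.deltaC ℂ) := Igusa.hasLExp_discriminant
    have := Cofaith.lexp_mul_width one_ne_zero h1 N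
    rwa [one_mul] at this
  have h2 := hG.mul hΔ
  have h3 : ((σ • UHol f : Hol) : ℍ → ℂ) * discriminant =
      ((f : ℍ → ℂ) ∣[(2 : ℤ)] σ⁻¹) * ((E₄ : ℍ → ℂ) * (E₆ : ℍ → ℂ)) := by
    funext τ
    rw [Pi.mul_apply, UHol_smul_apply, UFun_apply]
    have h0 := discriminant_ne_zero τ
    simp only [Pi.mul_apply]
    field_simp
  have h4 : IsZeroAtImInfty (((f : ℍ → ℂ) ∣[(2 : ℤ)] σ⁻¹) *
      ((E₄ : ℍ → ℂ) * (E₆ : ℍ → ℂ))) := by
    refine (Fermat.Agent.S21per.cusp_slash_zero f σ⁻¹).mul_boundedAtFilter ?_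
    exact (ModularFormClass.bdd_at_infty E₄).mul (ModularFormClass.bdd_at_infty E₆)
  have hG0 : G ≠ 0 := by
    rintro rfl
    have h5 := hG.funext (LExp.zero N)
    have h6 : σ • UHol f = 0 := Subtype.ext h5
    have h7 := congrArg (fun u : Hol => σ⁻¹ • u) h6
    simp only [inv_smul_smul, smul_zero] at h7
    exact UHol_ne_zero f hf h7
  have hD0 : qExpand ℂ N (S28aux.deltaC ℂ) ≠ 0 :=
    (map_ne_zero_iff _ (qExpand_injective N)).mpr (S28aux.deltaC_ne_zero ℂ)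
  rw [h3] at h2
  have h5 := order_pos_of_zero hN h2 (mul_ne_zero hG0 hD0) h4
  rw [HahnSeries.order_mul hG0 hD0, order_qExpand, S28aux.order_deltaC] at h5
  omega

/-! ### The expansion at infinity -/

open Fermat.Agent.Igusa in
/-- `- h j (j - 1728) / θ j` -/
def uSer (k : Type*) [Field k] (h : LaurentSeries k) : LaurentSeries k :=
  -(h * jqModC k * (jqModC k - 1728)) / theta (jqModC k)

theorem coeffMap_uSer {K L : Type*} [Field K] [Field L] (ι : K →+* L) (h : LaurentSeries K) :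
    coeffMap ι (uSer K h) = uSer L (coeffMap ι h) := by
  rw [uSer, uSer, map_div₀, map_neg, map_mul, map_mul, map_sub, Igusa.coeffMap_theta,
    coeffMap_jqModC, map_ofNat]

omit [NeZero N] in
theorem lexp_form : LExp 1 f (HahnSeries.ofPowerSeries ℤ ℂ (qExpansion 1 f)) := by
  have h : Igusa.HasLExp f (HahnSeries.ofPowerSeries ℤ ℂ (qExpansion 1 f)) := by
    rw [Igusa.HasLExp.ofPowerSeries_iff]
    intro τ
    have : Fact (IsCusp OnePoint.infty (Gamma0 N : Subgroup (GL (Fin 2) ℝ))) :=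
      ⟨Subgroup.isCusp_of_mem_strictPeriods one_pos (one_mem_strictPeriods_Gamma0 N)⟩
    exact ModularForm.hasSum_qExpansion f one_pos (one_mem_strictPeriods_Gamma0 N) τ
  exact h

theorem D_mul_UFun (g : ℍ → ℂ) (τ : ℍ) :
    Derivative.normalizedDerivOfComplex jFun τ * UFun g τ =
      -(g τ * jFun τ * (jFun τ - 1728)) := by
  have h0 := discriminant_ne_zero τ
  rw [D_jFun, UFun_apply, jFun_sub_1728, jFun]
  field_simp

omit [NeZero N] in
theorem lexp_UFun : LExp 1 (UFun f)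
    (uSer ℂ (HahnSeries.ofPowerSeries ℤ ℂ (qExpansion 1 f))) := by
  have h4 : LExp 1 E₄ _ := Igusa.HasLExp_of_form E₄
  have h6 : LExp 1 E₆ _ := Igusa.HasLExp_of_form E₆
  have hd : LExp 1 (fun τ => (discriminant τ)⁻¹) _ := Igusa.hasLExp_discriminant_inv
  have hU : LExp 1 (UFun f) _ := (((lexp_form f).mul h4).mul h6).mul hd
  have hj : LExp 1 jFun (jqModC ℂ) := Igusa.hasLExp_jFun
  have hD : LExp 1 (Derivative.normalizedDerivOfComplex jFun)
      (Igusa.theta (jqModC ℂ)) := Igusa.hasLExp_jFun.D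
  have h1 := hD.mul hU
  have h1728 : LExp 1 (fun _ => (1728 : ℂ)) (HahnSeries.C 1728) := LExp.const 1 1728
  have h2 := (((lexp_form f).mul hj).mul (hj.sub h1728)).neg
  have h3 : Derivative.normalizedDerivOfComplex jFun * UFun f =
      -((f : ℍ → ℂ) * jFun * (jFun - fun _ => (1728 : ℂ))) := by
    funext τ
    exact D_mul_UFun f τ
  rw [h3] at h1
  have h5 := h1.unique one_pos h2
  have hθ : Igusa.theta (jqModC ℂ) ≠ 0 := Igusa.theta_jq_ne_zero ℂ
  have h7 := (eq_div_iff hθ).mpr ((mul_comm _ _).trans h5)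
  rw [h7] at hU
  have h8 : (HahnSeries.C 1728 : LaurentSeries ℂ) = 1728 := map_ofNat _ _
  rw [h8] at hU
  exact hU

end Form

end Fermat.Agent.Dlog
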