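import Fermat.Agent.TwoGauss.Good
import Fermat.Agent.GoodRed.RHLower

/-!
# Divisor conditions satisfied by `h E₄ E₆ / Δ` for a cusp form `h` of weight two, their
reduction, and regularity of the associated differential
-/

set_option autoImplicit false

open AlgebraicCurve WithZero Module
open Fermat.Agent.FF Fermat.Agent.RR Fermat.Agent.Deuring Fermat.Agent.GoodRed
open Fermat.Agent.Residue
open scoped IntermediateField

noncomputable section

namespace Fermat.Agent.Dlog

section Rad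

variable {K F : Type*} [Field K] [Field F] [Algebra K F]

/-- the radical of a divisor -/
def rad (D : Divisor K F) : Divisor K F :=
  Finsupp.mapRange (fun n : ℤ => if n = 0 then 0 else 1) (by simp) D

theorem rad_apply (D : Divisor K F) (v : Place K F) :
    rad D v = if D v = 0 then 0 else 1 := Finsupp.mapRange_apply

theorem rad_nonneg (D : Divisor K F) : 0 ≤ rad D := by
  intro v
  rw [rad_apply]
  change (0 : ℤ) ≤ _
  split_ifs <;> norm_num

theorem exists_le_nsmul_rad (D : Divisor K F) : ∃ n : ℕ, D ≤ n • rad D := by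
  classical
  obtain ⟨n, hn⟩ : ∃ n : ℕ, ∀ v ∈ D.support, D v ≤ n := by
    refine ⟨D.support.sup fun v => (D v).toNat, fun v hv => ?_⟩
    have h1 : (D v).toNat ≤ D.support.sup fun v => (D v).toNat :=
      Finset.le_sup (f := fun v => (D v).toNat) hv
    have h2 := Int.self_le_toNat (D v)
    have h3 : ((D v).toNat : ℤ) ≤ ((D.support.sup fun v => (D v).toNat : ℕ) : ℤ) := by
      exact_mod_cast h1
    exact h2.trans h3
  refine ⟨n, fun v => ?_⟩
  rw [Finsupp.smul_apply, rad_apply]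
  by_cases hv : D v = 0
  · rw [if_pos hv, hv]; simp
  · rw [if_neg hv]
    have := hn v (Finsupp.mem_support_iff.mpr hv)
    simpa using this

end Rad

/-- The divisor conditions. -/
structure CuspLike (K : Type*) {F : Type*} [Field K] [Field F] [Algebra K F] (j u : F) : Prop where
  zero : ∀ v : Place K F, 0 < v.ord j → 1 ≤ v.ord u
  one : ∀ v : Place K F, 0 < v.ord (j - 1728) → 1 ≤ v.ord u
  reg : ∀ v : Place K F, 0 ≤ v.ord j → 0 ≤ v.ord u
  cusp : ∀ v : Place K F, v.ord j < 0 → v.ord j + 1 ≤ v.ord u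

section Ord

variable {K F : Type*} [Field K] [Field F] [Algebra K F] [IsFF K F]

omit [IsFF K F] in
theorem c1728 : (1728 : F) = algebraMap K F 1728 := by rw [map_ofNat]

omit [IsFF K F] in
theorem sub_ne_zero_of_tr {j : F} (hj : Transcendental K j) : j - 1728 ≠ 0 := by
  intro h
  apply hj
  rw [sub_eq_zero.mp h, c1728 (K := K)]
  exact isAlgebraic_algebraMap _

omit [IsFF K F] in
theorem ne_zero_of_tr {j : F} (hj : Transcendental K j) : j ≠ 0 := by
  rintro rfl
  exact hj isAlgebraic_zero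

omit [IsFF K F] in
theorem ord_c1728 (v : Place K F) : v.ord (1728 : F) = 0 := by
  rw [c1728 (K := K)]
  by_cases h : (1728 : K) = 0
  · rw [h, map_zero]; exact v.ord_zero
  · exact algebraic_ord_eq_zero v (isAlgebraic_algebraMap _)
      ((map_ne_zero _).mpr h)

omit [IsFF K F] in
theorem ord_sub_1728_nonneg (v : Place K F) {j : F} (hj : Transcendental K j) (h : 0 ≤ v.ord j) :
    0 ≤ v.ord (j - 1728) := by
  have h1 : j ∈ v.toValuationSubring := (FF.mem_iff_ord_nonneg v (ne_zero_of_tr hj)).mpr h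
  have h2 : (1728 : F) ∈ v.toValuationSubring := ofNat_mem _ _
  exact (FF.mem_iff_ord_nonneg v (sub_ne_zero_of_tr hj)).mp (sub_mem h1 h2)

omit [IsFF K F] in
theorem ord_nonneg_of_sub (v : Place K F) {j : F} (hj : Transcendental K j)
    (h : 0 ≤ v.ord (j - 1728)) : 0 ≤ v.ord j := by
  have h1 : j - 1728 ∈ v.toValuationSubring :=
    (FF.mem_iff_ord_nonneg v (sub_ne_zero_of_tr hj)).mpr h
  have h2 : (1728 : F) ∈ v.toValuationSubring := ofNat_mem _ _
  have h3 := add_mem h1 h2
  rw [sub_add_cancel] at h3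
  exact (FF.mem_iff_ord_nonneg v (ne_zero_of_tr hj)).mp h3

omit [IsFF K F] in
/-- at a pole of `j` -/
theorem ord_sub_1728_of_neg (v : Place K F) {j : F} (hj : Transcendental K j) (h : v.ord j < 0) :
    v.ord (j - 1728) = v.ord j := by
  have hj0 := ne_zero_of_tr hj
  have h1 : j - 1728 = j * (1 - 1728 * j⁻¹) := by field_simp
  have h2 : (1 - 1728 * j⁻¹) ≠ 0 := by
    intro h0
    rw [h0, mul_zero] at h1
    exact sub_ne_zero_of_tr hj h1
  have h3 : v.adicValuation (1 - 1728 * j⁻¹) = 1 := by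
    have h4 : v.adicValuation (1728 * j⁻¹) < 1 := by
      rw [map_mul, v.adicValuation_eq_exp_neg_ord (inv_ne_zero hj0), v.ord_inv]
      have h5 : v.adicValuation (1728 : F) ≤ 1 :=
        v.adicValuation_le_one_of_mem (ofNat_mem _ _)
      have h6 : exp (- -v.ord j) < (1 : ℤᵐ⁰) := by
        rw [← exp_zero, exp_lt_exp]; omega
      calc v.adicValuation (1728 : F) * exp (- -v.ord j) ≤ 1 * exp (- -v.ord j) := by gcongr
        _ < 1 := by rwa [one_mul]
    rw [sub_eq_add_neg, Valuation.map_add_eq_of_lt_left]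
    · exact map_one _
    · rw [Valuation.map_neg, map_one]; exact h4
  have h4 : v.ord (1 - 1728 * j⁻¹) = 0 := by
    rw [v.adicValuation_eq_exp_neg_ord h2, ← exp_zero, exp_inj] at h3
    omega
  rw [h1, v.ord_mul hj0 h2, h4, add_zero]

/-- `j` and `j - 1728` have no common zero if `1728 ≠ 0`. -/
theorem ord_sub_1728_of_pos (v : Place K F) {j : F} (hj : Transcendental K j)
    (h1728 : (1728 : K) ≠ 0) (h : 0 < v.ord j) : v.ord (j - 1728) = 0 := by
  have h0 := ord_sub_1728_nonneg v hj h.le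
  by_contra hne
  have hpos : 0 < v.ord (j - 1728) := by omega
  have hj0 := ne_zero_of_tr hj
  have hj1 := sub_ne_zero_of_tr hj
  have h2 : v.adicValuation (j - (j - 1728)) < 1 := by
    refine (Valuation.map_sub _ _ _).trans_lt (max_lt ?_ ?_)
    · rw [v.adicValuation_eq_exp_neg_ord hj0, ← exp_zero, exp_lt_exp]; omega
    · rw [v.adicValuation_eq_exp_neg_ord hj1, ← exp_zero, exp_lt_exp]; omega
  have h3 : j - (j - 1728) = 1728 := by ring
  have h4 : (1728 : F) ≠ 0 := by
    rw [c1728 (K := K)]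
    exact (map_ne_zero _).mpr h1728
  rw [h3, v.adicValuation_eq_exp_neg_ord h4, ord_c1728] at h2
  simp at h2

/-- Regularity of the differential `u / (j (j - 1728)) dj`. -/
theorem CuspLike.regular [IsAlgClosed K] {j u : F} (h : CuspLike K j u)
    (hj : Transcendental K j) (h1728 : (1728 : K) ≠ 0) (hu : u ≠ 0)
    (hD : KaehlerDifferential.D K F j ≠ 0) (v : Place K F) :
    0 ≤ v.ord (u / (j * (j - 1728))) + v.ordDifferential (KaehlerDifferential.D K F j) := by
  have hj0 := ne_zero_of_tr hj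
  have hj1 := sub_ne_zero_of_tr hj
  have h1 : v.ord (u / (j * (j - 1728))) = v.ord u - v.ord j - v.ord (j - 1728) := by
    rw [div_eq_mul_inv, v.ord_mul hu (inv_ne_zero (mul_ne_zero hj0 hj1)), v.ord_inv,
      v.ord_mul hj0 hj1]
    ring
  have hD' : KaehlerDifferential.D K F (j - 1728) = KaehlerDifferential.D K F j := by
    rw [c1728 (K := K), map_sub, Derivation.map_algebraMap, sub_zero]
  have h2 := ord_D_ge v hD
  have h3 := ord_D_ge v (f := j - 1728) (by rw [hD']; exact hD)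
  rw [hD'] at h3
  rw [h1]
  rcases lt_or_ge (v.ord j) 0 with h4 | h4
  · have h5 := h.cusp v h4
    have h6 := ord_sub_1728_of_neg v hj h4
    omega
  · have h7 := ord_D_nonneg v hD h4
    have h8 := ord_sub_1728_nonneg v hj h4
    rcases lt_or_ge 0 (v.ord j) with h5 | h5
    · have h6 := ord_sub_1728_of_pos v hj h1728 h5
      have := h.zero v h5
      omega
    · rcases lt_or_ge 0 (v.ord (j - 1728)) with h9 | h9
      · have := h.one v h9
        omega
      · have := h.reg v h4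
        omega

end Ord

section Reduction

variable {K F k F' : Type*} [Field K] [Field F] [Field k] [Field F'] [Algebra K F] [Algebra k F']
  [IsFF K F] [IsFF k F'] [IsAlgClosed K] [IsAlgClosed k] {G : GaussData K F k F'}

theorem r_mono (R : RedMap G) {D E : Divisor K F} (h : D ≤ E) : R.r D ≤ R.r E := by
  have h1 : (0 : Divisor K F) ≤ E - D := by
    intro v
    rw [Finsupp.sub_apply]
    have := h v
    change (0 : ℤ) ≤ _
    omega
  have h2 := R.nonneg _ h1
  rw [map_sub] at h2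
  intro v
  have := h2 v
  rw [Finsupp.sub_apply] at this
  change (0 : ℤ) ≤ _ at this
  omega

/-- if `D ≥ 0` and `r D` is positive at `Q` then `r (rad D)` is positive at `Q` -/
theorem one_le_r_rad (R : RedMap G) (D : Divisor K F) {Q : Place k F'} (hQ : 0 < R.r D Q) :
    1 ≤ R.r (rad D) Q := by
  obtain ⟨n, hn⟩ := exists_le_nsmul_rad D
  have h1 := r_mono R hn Q
  rw [map_nsmul, Finsupp.smul_apply, nsmul_eq_mul] at h1
  by_contra h
  have h2 : R.r (rad D) Q ≤ 0 := by omega
  have h3 : (n : ℤ) * R.r (rad D) Q ≤ 0 := mul_nonpos_of_nonneg_of_nonpos (by positivity) h2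
  omega

theorem mem_O_1728 : (1728 : F) ∈ G.O := ofNat_mem _ _

theorem ρ_sub_1728 {j : F} (hj : j ∈ G.O) (h : j - 1728 ∈ G.O) :
    G.ρ ⟨j - 1728, h⟩ = G.ρ ⟨j, hj⟩ - 1728 := by
  have h1 : (⟨j - 1728, h⟩ : G.O) = ⟨j, hj⟩ - 1728 := rfl
  rw [h1, map_sub, map_ofNat]

/-- reduction of the zero divisor -/
theorem r_div_add_pole (R : RedMap G) {j f : F} (hj : j ∈ G.O)
    (hjt : Transcendental k (G.ρ ⟨j, hj⟩))
    (hdeg : finrank K⟮j⟯ F = finrank k⟮G.ρ ⟨j, hj⟩⟯ F') (hf : f ∈ G.O) (hf0 : G.ρ ⟨f, hf⟩ ≠ 0) :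
    R.r (div f + pole j) = div (G.ρ ⟨f, hf⟩) + pole (G.ρ ⟨j, hj⟩) := by
  rw [map_add, R.r_div f hf hf0, Fermat.Agent.TwoGauss.r_pole R hj hjt hdeg]

/-- **The divisor conditions are preserved by good reduction.** -/
theorem CuspLike.reduction (R : RedMap G) [CharZero K] {j u : F} (h : CuspLike K j u)
    (hj : j ∈ G.O) (hjt : Transcendental k (G.ρ ⟨j, hj⟩))
    (hdeg : finrank K⟮j⟯ F = finrank k⟮G.ρ ⟨j, hj⟩⟯ F') (hu : u ∈ G.O)
    (hu0 : G.ρ ⟨u, hu⟩ ≠ 0) : CuspLike k (G.ρ ⟨j, hj⟩) (G.ρ ⟨u, hu⟩) := by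
  have hjt' : Transcendental K j := G.transcendental_of_ρ ⟨j, hj⟩ hjt
  have hj0 := ne_zero_of_tr hjt'
  have hρj0 := ne_zero_of_tr hjt
  have hsubO : j - 1728 ∈ G.O := sub_mem hj mem_O_1728
  have hρ1 : G.ρ ⟨j - 1728, hsubO⟩ = G.ρ ⟨j, hj⟩ - 1728 := ρ_sub_1728 hj hsubO
  have hρ10 : G.ρ ⟨j - 1728, hsubO⟩ ≠ 0 := by
    rw [hρ1]; exact sub_ne_zero_of_tr hjt
  set Z0 : Divisor K F := div j + pole j with hZ0
  set Z1 : Divisor K F := div (j - 1728) + pole j with hZ1
  have hZ0v : ∀ v, Z0 v = v.ord j + max (-v.ord j) 0 := fun v => by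
    rw [hZ0, Finsupp.add_apply, div_apply, pole_apply]
  have hZ1v : ∀ v, Z1 v = v.ord (j - 1728) + max (-v.ord j) 0 := fun v => by
    rw [hZ1, Finsupp.add_apply, div_apply, pole_apply]
  have hmain : (0 : Divisor K F) ≤ div u + pole j - rad Z0 - rad Z1 - rad (pole j) := by
    intro v
    rw [Finsupp.sub_apply, Finsupp.sub_apply, Finsupp.sub_apply, Finsupp.add_apply, div_apply,
      pole_apply, rad_apply, rad_apply, rad_apply, hZ0v, hZ1v, pole_apply]
    change (0 : ℤ) ≤ _
    rcases lt_or_ge (v.ord j) 0 with h4 | h4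
    · have h5 := h.cusp v h4
      have h6 := ord_sub_1728_of_neg v hjt' h4
      have h7 : max (-v.ord j) 0 = -v.ord j := max_eq_left (by omega)
      rw [h6, h7, add_neg_cancel, if_pos rfl, if_neg (by omega)]
      omega
    · have h7 : max (-v.ord j) 0 = 0 := max_eq_right (by omega)
      have h8 := ord_sub_1728_nonneg v hjt' h4
      simp only [h7, add_zero, if_true]
      rcases lt_or_ge 0 (v.ord j) with h5 | h5
      · have h6 := ord_sub_1728_of_pos v hjt' (by norm_num) h5
        rw [if_neg (by omega : ¬ v.ord j = 0), if_pos h6]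
        have := h.zero v h5
        omega
      · have h5' : v.ord j = 0 := by omega
        rw [if_pos h5']
        by_cases h9 : v.ord (j - 1728) = 0
        · rw [if_pos h9]
          have := h.reg v h4
          omega
        · rw [if_neg h9]
          have := h.one v (by omega)
          omega
  have hred := R.nonneg _ hmain
  rw [map_sub, map_sub, map_sub, r_div_add_pole R hj hjt hdeg hu hu0] at hred
  have hr0 : ∀ Q, 0 ≤ R.r (rad Z0) Q := fun Q => R.nonneg _ (rad_nonneg _) Q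
  have hr1 : ∀ Q, 0 ≤ R.r (rad Z1) Q := fun Q => R.nonneg _ (rad_nonneg _) Q
  have hr2 : ∀ Q, 0 ≤ R.r (rad (pole j)) Q := fun Q => R.nonneg _ (rad_nonneg _) Q
  have hQ : ∀ Q : Place k F', 0 ≤ Q.ord (G.ρ ⟨u, hu⟩) + max (-Q.ord (G.ρ ⟨j, hj⟩)) 0 -
      R.r (rad Z0) Q - R.r (rad Z1) Q - R.r (rad (pole j)) Q := by
    intro Q
    have := hred Q
    rw [Finsupp.sub_apply, Finsupp.sub_apply, Finsupp.sub_apply, Finsupp.add_apply, div_apply,
      pole_apply] at this
    exact this
  have e0 : R.r Z0 = div (G.ρ ⟨j, hj⟩) + pole (G.ρ ⟨j, hj⟩) :=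
    r_div_add_pole R hj hjt hdeg hj hρj0
  have e1 : R.r Z1 = div (G.ρ ⟨j, hj⟩ - 1728) + pole (G.ρ ⟨j, hj⟩) := by
    rw [hZ1, r_div_add_pole R hj hjt hdeg hsubO hρ10, hρ1]
  have e2 : R.r (pole j) = pole (G.ρ ⟨j, hj⟩) := Fermat.Agent.TwoGauss.r_pole R hj hjt hdeg
  refine ⟨fun Q hQ0 => ?_, fun Q hQ1 => ?_, fun Q hQ0 => ?_, fun Q hQ0 => ?_⟩
  · have h1 := hQ Q
    have h2 : max (-Q.ord (G.ρ ⟨j, hj⟩)) 0 = 0 := max_eq_right (by omega)
    have h3 : 1 ≤ R.r (rad Z0) Q := by
      apply one_le_r_rad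
      rw [e0, Finsupp.add_apply, div_apply, pole_apply, h2]
      omega
    have := hr1 Q
    have := hr2 Q
    omega
  · have h1 := hQ Q
    have h0 := ord_nonneg_of_sub Q hjt hQ1.le
    have h2 : max (-Q.ord (G.ρ ⟨j, hj⟩)) 0 = 0 := max_eq_right (by omega)
    have h3 : 1 ≤ R.r (rad Z1) Q := by
      apply one_le_r_rad
      rw [e1, Finsupp.add_apply, div_apply, pole_apply, h2]
      omega
    have := hr0 Q
    have := hr2 Q
    omega
  · have h1 := hQ Q
    have h2 : max (-Q.ord (G.ρ ⟨j, hj⟩)) 0 = 0 := max_eq_right (by omega)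
    have := hr0 Q
    have := hr1 Q
    have := hr2 Q
    omega
  · have h1 := hQ Q
    have h2 : max (-Q.ord (G.ρ ⟨j, hj⟩)) 0 = -Q.ord (G.ρ ⟨j, hj⟩) := max_eq_left (by omega)
    have h3 : 1 ≤ R.r (rad (pole j)) Q := by
      apply one_le_r_rad
      rw [e2, pole_apply, h2]
      omega
    have := hr0 Q
    have := hr1 Q
    omega

end Reduction

end Fermat.Agent.Dlog
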