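import Fermat.Agent.Dlog.ModU
import Fermat.Agent.Dlog.Cond

/-!
# The divisor conditions in characteristic zero
-/

set_option autoImplicit false

open UpperHalfPlane hiding I
open Function Filter Topology ModularForm CongruenceSubgroup ModularCurve
open scoped Manifold MatrixGroups IntermediateField

noncomputable section

namespace Fermat.Agent.Dlog

open Fermat.Agent.X0Emb Fermat.Agent.X0Deg Fermat.Agent.JLevelOne Fermat.Agent.ModFun
open Fermat.Agent.GalRep Fermat.Agent.S24aux AlgebraicCurve Fermat.Agent.FF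

variable {N : ℕ} [NeZero N]

theorem ordAt_hol_nonneg (τ0 : ℍ) {F : Hol} (hF : F ≠ 0) :
    0 ≤ ordAt τ0 (algebraMap Hol MerH F) := by
  rw [ordAt_algebraMap τ0 hF]; positivity

theorem ordAt_hol_pos (τ0 : ℍ) {F : Hol} (hF : F ≠ 0) (h0 : F τ0 = 0) :
    0 < ordAt τ0 (algebraMap Hol MerH F) := by
  rw [ordAt_algebraMap τ0 hF]
  have h1 := ordH_ne_top τ0 hF
  have h2 : ordH τ0 F ≠ 0 := by
    intro h
    rw [ordH, AnalyticAt.analyticOrderAt_eq_zero (analyticAt_of_mdiff (Hol.mdiff F) τ0)] at h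
    apply h
    simpa using h0
  have h3 : (ordH τ0 F).toNat ≠ 0 := by
    rw [Ne, ENat.toNat_eq_zero]
    push Not
    exact ⟨h2, h1⟩
  omega

/-- orders at the places over a finite point of the `j`-line -/
theorem ord_datum {u : modularFunctionFieldBar N} (hu : u ≠ 0) {F : Hol} (hF0 : F ≠ 0)
    (hF : LExp 1 F (coeffMap iota (u : LaurentSeries X0Emb.KK)))
    (τ0 : ℍ) (t : SL(2, ℤ)) (ht : t • τ0 = τ0) (a : X0Emb.KK) (m : ℕ) (hm0 : 0 < m)
    (hm : ordH τ0 (Fermat.Agent.X0Deg.jH - constHol (iota a)) = m)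
    (hdvd : ∀ (f : MerH) (r : ℕ), f ≠ 0 → t ^ r • f = f → (m : ℤ) ∣ r * ordAt τ0 f)
    (v : Place X0Emb.KK (modularFunctionFieldBar N))
    (hv : 0 < v.ord ((embData N).jF - algebraMap X0Emb.KK (modularFunctionFieldBar N) a)) :
    0 ≤ v.ord u ∧ ((∀ σ : SL(2, ℤ), (σ • F : Hol) τ0 = 0) → 1 ≤ v.ord u) := by
  have hcard : Nat.card (XX N) = Module.finrank
      X0Emb.KK⟮(embData N).jF - algebraMap X0Emb.KK (modularFunctionFieldBar N) a⟯
        (modularFunctionFieldBar N) := by
    rw [FFFund.finrank_of_eq (FFFund.adjoin_sub_algebraMap (embData N).jF a), finite_card]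
  obtain ⟨x, r, hr, -, hord⟩ := OrbitDatum_exists
    (FFFund.transcendental_sub (embData N).transcendental_jF a) hcard
    (datum (embData N) τ0 t ht a m hm0 hm hdvd) v hv
  obtain ⟨σ, rfl⟩ := QuotientGroup.mk_surjective x
  have h1 := hord u hu
  have h3 : ordAt τ0 ((embData N).embM (QuotientGroup.mk σ)
      ((embData N).jF - algebraMap X0Emb.KK (modularFunctionFieldBar N) a)) = m := by
    have h1 : Fermat.Agent.X0Deg.jH - constHol (iota a) ≠ 0 := by
      intro h
      rw [h, ordH_zero] at hm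
      exact ENat.top_ne_natCast m hm
    refine (congrArg (ordAt τ0) (embM_jF_sub (embData N) (QuotientGroup.mk σ) a)).trans ?_
    refine (ordAt_algebraMap τ0 h1).trans ?_
    rw [hm, ENat.toNat_natCast]
  have h4 : (r : ℤ) * ordAt τ0 ((embData N).embM (QuotientGroup.mk σ) u) =
      ordAt τ0 ((embData N).embM (QuotientGroup.mk σ)
      ((embData N).jF - algebraMap X0Emb.KK (modularFunctionFieldBar N) a)) * v.ord u := h1
  rw [h3, embM_eq hF σ] at h4
  have hσF : σ • F ≠ 0 := smul_ne_zero_hol σ hF0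
  have hr' : (0 : ℤ) < r := by exact_mod_cast hr
  have hm' : (0 : ℤ) < m := by exact_mod_cast hm0
  refine ⟨?_, fun hz => ?_⟩
  · by_contra hneg
    push Not at hneg
    have h5 := ordAt_hol_nonneg τ0 hσF
    have h6 := mul_nonneg hr'.le h5
    rw [h4] at h6
    have := mul_neg_of_pos_of_neg hm' hneg
    omega
  · by_contra hneg
    push Not at hneg
    have h5 := ordAt_hol_pos τ0 hσF (hz σ)
    have h6 := mul_pos hr' h5
    rw [h4] at h6
    have h7 : v.ord u ≤ 0 := by omega
    have := mul_nonpos_of_nonneg_of_nonpos hm'.le h7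
    omega

/-- every place where `j` is integral lies over a point of the `j`-line -/
theorem exists_value (v : Place X0Emb.KK (modularFunctionFieldBar N))
    (hj : 0 ≤ v.ord (embData N).jF) : ∃ a : X0Emb.KK,
      0 < v.ord ((embData N).jF - algebraMap X0Emb.KK (modularFunctionFieldBar N) a) := by
  have hmem : (embData N).jF ∈ v.toValuationSubring :=
      (Fermat.Agent.FFDiff.mem_iff_ord_nonneg v (jF_ne_zero (embData N))).mpr hj
  have hfd : FiniteDimensional X0Emb.KK⟮(embData N).jF⟯ (modularFunctionFieldBar N) :=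
    Fermat.Agent.TEll.finiteDimensional_jF0 N
  obtain ⟨a, ha⟩ := Fermat.Agent.FFHur.ord_eq_zero_iff_of_residue v
    (FFFund.residue_surjective_of_place _ (embData N).transcendental_jF v) hmem
  refine ⟨a, ha.resolve_left fun h1 => ?_⟩
  refine (embData N).transcendental_jF ?_
  rw [sub_eq_zero.mp h1]
  exact isAlgebraic_algebraMap a

/-- orders at finite places -/
theorem ord_finite {u : modularFunctionFieldBar N} (hu : u ≠ 0) {F : Hol} (hF0 : F ≠ 0)
    (hF : LExp 1 F (coeffMap iota (u : LaurentSeries X0Emb.KK)))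
    (a : X0Emb.KK) (v : Place X0Emb.KK (modularFunctionFieldBar N))
    (ha : 0 < v.ord ((embData N).jF - algebraMap X0Emb.KK (modularFunctionFieldBar N) a)) :
    0 ≤ v.ord u ∧ ((∀ τ : ℍ, jFun τ = iota a → F τ = 0) → 1 ≤ v.ord u) := by
  obtain ⟨τ0, hτ0, h1⟩ : ∃ τ0 : ℍ, jFun τ0 = iota a ∧
      (0 ≤ v.ord u ∧ ((∀ σ : SL(2, ℤ), (σ • F : Hol) τ0 = 0) → 1 ≤ v.ord u)) := by
    by_cases ha0 : a = 0
    · subst ha0
      refine ⟨ρ, ?_, ord_datum hu hF0 hF _ _ Fermat.Agent.JLevelOne.ST_smul_ρ 0 3 (by norm_num) (by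
        rw [ordH_jH_sub, map_zero]
        simpa using! Fermat.Agent.JLevelOne.analyticOrderAt_jFun_ρ) (fun f r hf hr =>
        dvd_mul_ordAt Nat.prime_three (fun b => by rw [ST_pow_three, S24aux.neg_one_smul_hol])
          (fun h hh hinv => dvd_three hh hinv) hf hr) v ha⟩
      rw [map_zero, jFun, E₄_ρ]
      simp
    · by_cases ha1 : a = 1728
      · subst ha1
        refine ⟨UpperHalfPlane.I, ?_, ord_datum hu hF0 hF UpperHalfPlane.I _
          Fermat.Agent.JLevelOne.S_smul_I 1728 2 (by norm_num) (by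
          rw [ordH_jH_sub, map_ofNat]
          simpa using! Fermat.Agent.JLevelOne.analyticOrderAt_jFun_sub_1728_I) (fun f r hf hr =>
          dvd_mul_ordAt Nat.prime_two (fun b => by rw [S_pow_two, S24aux.neg_one_smul_hol])
            (fun h hh hinv => dvd_two hh hinv) hf hr) v ha⟩
        have h2 := jFun_sub_1728 UpperHalfPlane.I
        rw [E₆_I] at h2
        rw [map_ofNat]
        have h3 : jFun UpperHalfPlane.I - 1728 = 0 := by rw [h2]; simp
        exact sub_eq_zero.mp h3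
      · obtain ⟨τ0, hτ0⟩ := Fermat.Agent.JLevelOne.jFun_surjective (iota a)
        have h4 : E₄ τ0 ≠ 0 := by
          rw [Ne, ← Fermat.Agent.JLevelOne.jFun_eq_zero_iff, hτ0]
          exact (map_ne_zero _).mpr ha0
        have h6 : E₆ τ0 ≠ 0 := by
          rw [Ne, ← Fermat.Agent.JLevelOne.jFun_eq_1728_iff, hτ0, ← map_ofNat iota]
          exact fun h => ha1 (iota.injective h)
        exact ⟨τ0, hτ0, ord_datum hu hF0 hF τ0 1 (one_smul _ _) a 1 one_pos (by
          rw [ordH_jH_sub, ← hτ0]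
          exact Fermat.Agent.JLevelOne.analyticOrderAt_jFun_sub_of_ne h4 h6)
            (fun f r _ _ => by simp) v ha⟩
  refine ⟨h1.1, fun h => h1.2 fun σ => ?_⟩
  rw [Hol.smul_apply]
  apply h
  rw [jFun_smul, hτ0]

/-- order at the cusps -/
theorem ord_cusp {u : modularFunctionFieldBar N} (hu : u ≠ 0) {F : Hol}
    (hF : LExp 1 F (coeffMap iota (u : LaurentSeries X0Emb.KK)))
    (hcusp : ∀ σ : SL(2, ℤ), ∃ G : LaurentSeries ℂ, LExp N (σ • F : Hol) G ∧
      1 - (N : ℤ) ≤ G.order)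
    (v : Place X0Emb.KK (modularFunctionFieldBar N)) (hv : v.ord (embData N).jF < 0) :
    v.ord (embData N).jF + 1 ≤ v.ord u := by
  have hv' : 0 < v.ord (embData N).jF⁻¹ := by rw [v.ord_inv]; omega
  have hcard : Nat.card (XX N) = Module.finrank
      X0Emb.KK⟮(embData N).jF⁻¹⟯ (modularFunctionFieldBar N) := by
    rw [FFFund.finrank_of_eq (FFFund.mem_or_inv_mem_adjoin (embData N).jF), finite_card]
  obtain ⟨x, r, hr, -, hord⟩ := OrbitDatum_exists
    (FFFund.transcendental_inv (embData N).transcendental_jF) hcard (datumInf (embData N)) v hv'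
  obtain ⟨σ, rfl⟩ := QuotientGroup.mk_surjective x
  obtain ⟨G, hG, hGo⟩ := hcusp σ
  have h0 : (embData N).jF⁻¹ ≠ 0 := inv_ne_zero (jF_ne_zero (embData N))
  have h1 : (r : ℤ) * ((embData N).embInf (QuotientGroup.mk σ) u).order =
      ((embData N).embInf (QuotientGroup.mk σ) (embData N).jF⁻¹).order * v.ord u := hord u hu
  have h2 : (r : ℤ) * ((embData N).embInf (QuotientGroup.mk σ) (embData N).jF⁻¹).order =
      ((embData N).embInf (QuotientGroup.mk σ) (embData N).jF⁻¹).order *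
        v.ord (embData N).jF⁻¹ := hord _ h0
  rw [order_embInf_inv] at h1 h2
  rw [embInf_eq hF σ hG] at h1
  have hN : (0 : ℤ) < N := by exact_mod_cast Nat.pos_of_ne_zero (NeZero.ne N)
  have hr' : (0 : ℤ) < r := by exact_mod_cast hr
  have h3 : v.ord (embData N).jF⁻¹ = r := by
    have : (N : ℤ) * v.ord (embData N).jF⁻¹ = N * r := by rw [← h2]; ring
    exact mul_left_cancel₀ hN.ne' this
  rw [v.ord_inv] at h3
  have h4 : (r : ℤ) * (1 - N) ≤ N * v.ord u := by
    rw [← h1]
    exact mul_le_mul_of_nonneg_left hGo hr'.le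
  have h5 : (N : ℤ) * (-r) < N * v.ord u := by
    calc (N : ℤ) * (-r) < r * (1 - N) := by nlinarith
      _ ≤ _ := h4
  have h6 := lt_of_mul_lt_mul_left h5 hN.le
  omega

/-- the divisor conditions for `u = f E₄ E₆ / Δ` -/
theorem cuspLike_of_form (f : CuspForm (Gamma0 N) 2) (hf : f ≠ 0)
    {u : modularFunctionFieldBar N}
    (hu : LExp 1 (UFun f) (coeffMap iota (u : LaurentSeries X0Emb.KK))) :
    CuspLike X0Emb.KK (embData N).jF u := by
  have hF0 := UHol_ne_zero f hf
  have hu0 : u ≠ 0 := by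
    rintro rfl
    apply hF0
    have h1 : LExp 1 (UFun f) (0 : LaurentSeries ℂ) := by
      have := hu
      rwa [ZeroMemClass.coe_zero, map_zero] at this
    exact Subtype.ext (h1.funext (LExp.zero 1))
  have hF : LExp 1 (UHol f) (coeffMap iota (u : LaurentSeries X0Emb.KK)) := hu
  refine ⟨fun v hv => ?_, fun v hv => ?_, fun v hv => ?_, fun v hv => ?_⟩
  · refine (ord_finite hu0 hF0 hF 0 v (by rwa [map_zero, sub_zero])).2 fun τ hτ => ?_
    exact UFun_eq_zero_of_E4 _ (by rw [hτ, map_zero])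
  · refine (ord_finite hu0 hF0 hF 1728 v (by rwa [map_ofNat])).2 fun τ hτ => ?_
    exact UFun_eq_zero_of_E6 _ (by rw [hτ, map_ofNat])
  · obtain ⟨a, ha⟩ := exists_value v hv
    exact (ord_finite hu0 hF0 hF a v ha).1
  · refine ord_cusp hu0 hF (fun σ => ?_) v hv
    obtain ⟨G, hG⟩ := (UFun_hasChar f).exists_lexp_smul (g := UHol f) parChar_one σ
    exact ⟨G, hG, one_sub_le_order f hf σ hG⟩

end Fermat.Agent.Dlog
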