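import Fermat.Agent.GoodRed.RHLower
import Fermat.Agent.Igusa.Separable
import Fermat.Agent.S44w.Dlog

/-!
# Logarithmic differentials and regular differentials
-/

set_option autoImplicit false

open AlgebraicCurve WithZero Module KaehlerDifferential
open Fermat.Agent.RR Fermat.Agent.FF Fermat.Agent.Residue Fermat.Agent.GoodRed
open scoped IntermediateField

noncomputable section

namespace Fermat.Agent.Dlog

section Abs

variable {K F : Type*} [Field K] [Field F] [Algebra K F] [IsFF K F] [IsAlgClosed K]

theorem ord_D_ge_of_dvd (p : ℕ) [CharP K p] (v : Place K F) {f : F} (hD : D K F f ≠ 0)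
    (hp : (p : ℤ) ∣ v.ord f) : v.ord f ≤ v.ordDifferential (D K F f) := by
  have := nontrivial_kaehler_of_isFF K F
  have := dCoordGenerates_of_isFF v
  have hf : f ≠ 0 := by rintro rfl; exact hD (map_zero _)
  set e := v.ord f with he
  have he0 : (e : F) = 0 := by
    have h1 : (e : K) = 0 := (CharP.intCast_eq_zero_iff K p e).mpr hp
    rw [← map_intCast (algebraMap K F), h1, map_zero]
  have hπ0 := unif_ne_zero' v
  obtain ⟨u, hu0, huord, hfu⟩ : ∃ u : F, u ≠ 0 ∧ v.ord u = 0 ∧ f = u * (unif v) ^ e := by
    refine ⟨f * (unif v) ^ (-e), mul_ne_zero hf (zpow_ne_zero _ hπ0), ?_, ?_⟩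
    · rw [v.ord_mul hf (zpow_ne_zero _ hπ0), v.ord_zpow, ord_unif]
      omega
    · rw [mul_assoc, ← zpow_add₀ hπ0, neg_add_cancel, zpow_zero, mul_one]
  have hub : u ∈ ball v 0 := by
    rw [mem_ball, v.adicValuation_eq_exp_neg_ord hu0, huord]
    simp
  have h1 := v.differentialCoeff_smul_dCoord (D K F u)
  set c := v.differentialCoeff (D K F u) with hc
  have hcb : c ∈ ball v 0 := coeff_integral v (adicValuation_unif v) hub h1.symm
  have key : D K F f = ((unif v) ^ e * c) • v.dCoord := by
    rw [mul_smul, h1]
    conv_lhs => rw [hfu]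
    rw [Derivation.leibniz, Derivation.leibniz_zpow, ← Int.cast_smul_eq_zsmul F, he0, zero_smul,
      smul_zero, zero_add]
  have h2 : v.ordDifferential (D K F f) = v.ord ((unif v) ^ e * c) := by
    rw [Place.ordDifferential, v.differentialCoeff_unique key]
  rw [h2]
  have hc0 : c ≠ 0 := by
    intro h0
    rw [h0, mul_zero, zero_smul] at key
    exact hD key
  have hcord : 0 ≤ v.ord c := by
    rw [mem_ball, v.adicValuation_eq_exp_neg_ord hc0, exp_le_exp] at hcb
    omega
  rw [v.ord_mul (zpow_ne_zero _ hπ0) hc0, v.ord_zpow, ord_unif]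
  omega

/-- `f` is such that `f dj` is regular -/
def Reg (K : Type*) {F : Type*} [Field K] [Field F] [Algebra K F] (j f : F) : Prop :=
  f = 0 ∨ ∀ v : Place K F, 0 ≤ v.ord f + v.ordDifferential (D K F j)

theorem mem_span_of_reg {j : F} (hD : D K F j ≠ 0) {ι : Type*} [Fintype ι] (w : ι → F)
    (hli : LinearIndependent K w) (hreg : ∀ i, Reg K j (w i))
    (hcard : genusFF K F ≤ Fintype.card ι) {x : F} (hx : Reg K j x) :
    x ∈ Submodule.span K (Set.range w) := by
  have hcan := hasCanonicalDivisor_of_isFF K F
  set W := canonicalDivisorOf hD with hW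
  have hWv : ∀ v : Place K F, W v = v.ordDifferential (D K F j) := canonicalDivisorOf_apply hD
  have hell := (canonical_of_isFF hD hWv).2.2
  have hmem : ∀ {f : F}, Reg K j f → f ∈ riemannRochSpace W := by
    intro f hf
    rcases eq_or_ne f 0 with rfl | hf0
    · exact Submodule.zero_mem _
    rw [mem_riemannRochSpace_iff]
    intro v
    right
    have := hf.resolve_left hf0 v
    rw [hWv]
    omega
  have hle : Submodule.span K (Set.range w) ≤ riemannRochSpace W := by
    rw [Submodule.span_le]
    rintro _ ⟨i, rfl⟩
    exact hmem (hreg i)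
  have hfin : finrank K (Submodule.span K (Set.range w)) = Fintype.card ι :=
    finrank_span_eq_card hli
  have heq : Submodule.span K (Set.range w) = riemannRochSpace W := by
    have h3 : finrank K (riemannRochSpace W) = genusFF K F := hell
    refine Submodule.eq_of_le_of_finrank_le hle ?_
    rw [hfin, h3]
    exact hcard
  rw [heq]
  exact hmem hx

/-- logarithmic differentials with divisor divisible by `p` are regular. -/
theorem reg_of_dvd (p : ℕ) [CharP K p] {j f g : F} (hf : f ≠ 0)
    (hd : ∀ v : Place K F, (p : ℤ) ∣ v.ord f) (hj : D K F j ≠ 0)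
    (hg : D K F f = (f * g) • D K F j) : Reg K j g := by
  rcases eq_or_ne g 0 with h0 | h0
  · exact Or.inl h0
  right
  intro v
  have := nontrivial_kaehler_of_isFF K F
  have := dCoordGenerates_of_isFF v
  have hDf : D K F f ≠ 0 := by
    rw [hg]
    exact smul_ne_zero (mul_ne_zero hf h0) hj
  have h1 := ord_D_ge_of_dvd p v hDf (hd v)
  have hc : v.differentialCoeff (D K F j) ≠ 0 := by
    intro h
    have h2 := v.differentialCoeff_smul_dCoord (D K F j)
    rw [h, zero_smul] at h2
    exact hj h2.symm
  rw [hg, v.ordDifferential_smul (mul_ne_zero hf h0) hc, v.ord_mul hf h0] at h1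
  omega

omit [IsFF K F] [IsAlgClosed K] in
theorem D_eq_smul {j : F} (δ : Derivation K F F) (hδ : δ j = 1)
    (hspan : Submodule.span F {D K F j} = ⊤) (f : F) : D K F f = δ f • D K F j := by
  have h1 : D K F f ∈ Submodule.span F {D K F j} := by rw [hspan]; trivial
  obtain ⟨c, hc⟩ := Submodule.mem_span_singleton.mp h1
  have h2 := congrArg δ.liftKaehlerDifferential hc
  rw [map_smul, Derivation.liftKaehlerDifferential_comp_D,
    Derivation.liftKaehlerDifferential_comp_D, hδ, smul_eq_mul, mul_one] at h2
  rw [← h2, hc]

theorem D_ne_zero_of_sep (j : F) [Algebra.IsSeparable K⟮j⟯ F] : D K F j ≠ 0 := by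
  have hnt := nontrivial_kaehler_of_isFF K F
  intro h0
  have h1 := span_D_of_isSeparable (K := K) j
  rw [h0, Submodule.span_singleton_eq_bot.mpr rfl] at h1
  exact bot_ne_top h1

/-- logarithmic differentials with divisor divisible by `p` are regular. -/
theorem reg_der (p : ℕ) [CharP K p] {j f : F} (hsep : Algebra.IsSeparable K⟮j⟯ F)
    (δ : Derivation K F F) (hδ : δ j = 1) (hf : f ≠ 0)
    (hd : ∀ v : Place K F, (p : ℤ) ∣ v.ord f) : Reg K j (δ f / f) := by
  refine reg_of_dvd p hf hd (D_ne_zero_of_sep j) ?_
  rw [mul_div_cancel₀ _ hf]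
  exact D_eq_smul δ hδ (span_D_of_isSeparable (K := K) j) f

end Abs

section Theta

variable {k : Type*} [Field k] [PerfectField k]

open Fermat.Agent.Igusa

/-- the derivation `θ / θ j` -/
def thetaDer (F : IntermediateField k (LaurentSeries k)) (j : F)
    (ht : theta (j : LaurentSeries k) ≠ 0) (htr : Transcendental k (j : LaurentSeries k))
    (hint : ∀ f : F, IsIntegral k⟮(j : LaurentSeries k)⟯ (f : LaurentSeries k)) :
    Derivation k F F :=
  Derivation.mk'
    { toFun := fun f => ⟨theta (f : LaurentSeries k) / theta (j : LaurentSeries k),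
        theta_div_mem ht htr F j.2 f.2 (hint f)⟩
      map_add' := fun f g => by
        apply Subtype.ext
        show theta ((f + g : F) : LaurentSeries k) / _ = _ / _ + _ / _
        rw [← add_div, ← theta_add]
        rfl
      map_smul' := fun c f => by
        apply Subtype.ext
        rw [RingHom.id_apply, Algebra.smul_def, Algebra.smul_def]
        show theta (algebraMap k (LaurentSeries k) c * (f : LaurentSeries k)) / _ =
          algebraMap k (LaurentSeries k) c * (_ / _)
        rw [theta_mul, theta_algebraMap, zero_mul, zero_add, mul_div_assoc] }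
    (fun f g => by
      apply Subtype.ext
      show theta ((f * g : F) : LaurentSeries k) / _ = _
      have h1 : ((f * g : F) : LaurentSeries k) = (f : LaurentSeries k) * g := rfl
      rw [h1, theta_mul, add_div, add_comm]
      show _ = (f : LaurentSeries k) * (theta (g : LaurentSeries k) / theta (j : LaurentSeries k)) +
        (g : LaurentSeries k) * (theta (f : LaurentSeries k) / theta (j : LaurentSeries k))
      ring)

theorem coe_thetaDer (F : IntermediateField k (LaurentSeries k)) (j : F)
    (ht : theta (j : LaurentSeries k) ≠ 0) (htr : Transcendental k (j : LaurentSeries k))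
    (hint : ∀ f : F, IsIntegral k⟮(j : LaurentSeries k)⟯ (f : LaurentSeries k)) (f : F) :
    ((thetaDer F j ht htr hint f : F) : LaurentSeries k) =
      theta (f : LaurentSeries k) / theta (j : LaurentSeries k) := rfl

theorem thetaDer_self (F : IntermediateField k (LaurentSeries k)) (j : F)
    (ht : theta (j : LaurentSeries k) ≠ 0) (htr : Transcendental k (j : LaurentSeries k))
    (hint : ∀ f : F, IsIntegral k⟮(j : LaurentSeries k)⟯ (f : LaurentSeries k)) :
    thetaDer F j ht htr hint j = 1 :=
  Subtype.ext (div_self ht)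

end Theta

end Fermat.Agent.Dlog
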