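import Fermat.Agent.Dlog.Main

/-!
# Logarithmic derivatives: the final statements
-/

set_option autoImplicit false

noncomputable section

open ModularCurve HahnSeries Module Polynomial AlgebraicCurve
open Fermat.Agent.FF Fermat.Agent.S44w Fermat.Agent.GoodRed Fermat.Agent.Residue
open scoped IntermediateField

namespace Fermat.Agent.Dlog

section Abs

theorem isIntegral_coe {k L : Type*} [Field k] [Field L] [Algebra k L]
    (F : IntermediateField k L) (y f : F) (h : IsIntegral k⟮y⟯ f) :
    IsIntegral k⟮(y : L)⟯ (f : L) := by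
  have h1 : k⟮y⟯.map F.val = k⟮(y : L)⟯ := by
    rw [IntermediateField.adjoin_map, Set.image_singleton]
    rfl
  let e : k⟮y⟯ ≃ₐ[k] k⟮(y : L)⟯ :=
    (IntermediateField.equivMap k⟮y⟯ F.val).trans (IntermediateField.equivOfEq h1)
  refine h.map_of_comp_eq e.toRingEquiv.toRingHom (F.val : F →+* L) ?_
  ext x
  rfl

variable {k : Type*} [Field k] [IsAlgClosed k] (p : ℕ) [Fact p.Prime] [CharP k p]
  {N : ℕ} [NeZero N] {F : IntermediateField k (LaurentSeries k)} [IsFF k F] {j : F}

omit [IsAlgClosed k] in
theorem jq_ne_zero : jqModC k ≠ 0 := by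
  intro h
  have := congrArg (fun x : LaurentSeries k => x.coeff (-1)) h
  simp only [coeff_jqModC_neg_one, HahnSeries.coeff_zero] at this
  exact one_ne_zero this

omit [IsAlgClosed k] in
theorem smul_eq_algebraMap_mul (c : k) (y : LaurentSeries k) :
    c • y = algebraMap k (LaurentSeries k) c * y := by
  rw [algebraMap_laurentSeries_eq_single, HahnSeries.single_zero_mul_eq_smul]

omit [IsAlgClosed k] in
theorem jq_sub_ne_zero : jqModC k - 1728 ≠ 0 := by
  intro h
  have h1 := congrArg (fun x : LaurentSeries k => x.coeff (-1)) h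
  have h2 : ((1728 : LaurentSeries k)).coeff (-1) = 0 := by
    have h3 : (1728 : LaurentSeries k) = HahnSeries.C 1728 := (map_ofNat _ _).symm
    rw [h3, HahnSeries.C_apply, HahnSeries.coeff_single_of_ne (by norm_num)]
  simp only [HahnSeries.coeff_sub, h2, HahnSeries.coeff_zero, coeff_jqModC_neg_one] at h1
  norm_num at h1

/-- multiplication by `- θ j` -/
def mulTheta (F : IntermediateField k (LaurentSeries k)) : F →ₗ[k] LaurentSeries k where
  toFun x := -(Igusa.theta (jqModC k) * (x : LaurentSeries k))
  map_add' x y := by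
    show -(_ * ((x : LaurentSeries k) + y)) = _
    ring
  map_smul' c x := by
    rw [RingHom.id_apply, Algebra.smul_def, smul_eq_algebraMap_mul]
    show -(_ * (algebraMap k (LaurentSeries k) c * (x : LaurentSeries k))) = _
    ring

omit [IsAlgClosed k] in
theorem mulTheta_apply (F : IntermediateField k (LaurentSeries k)) (x : F) :
    mulTheta F x = -(Igusa.theta (jqModC k) * (x : LaurentSeries k)) := rfl

theorem dlog_mem_span_of_reg (hj : (j : LaurentSeries k) = jqModC k)
    (hsep : Algebra.IsSeparable k⟮j⟯ F)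
    (hreg : ∀ h : LZ N, redL k h ≠ 0 → ∃ w : F, mulTheta F w = redL k h ∧ Reg k j w)
    (hgen : genusFF k F ≤ finrank ℤ (LZ N)) {f : F} (hf : f ≠ 0)
    (hd : ∀ P : Place k F, (p : ℤ) ∣ P.ord f) :
    dlog (f : LaurentSeries k) ∈ Submodule.span k (Set.range (redL k (M := N))) := by
  classical
  have hθ : Igusa.theta (jqModC k) ≠ 0 := Igusa.theta_jq_ne_zero k
  have htrj : Transcendental k (jqModC k) := GaussVal.transcendental_jqModC k
  have htr : Transcendental k j := by
    rw [← transcendental_algebraMap_iff (algebraMap F (LaurentSeries k)).injective]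
    show Transcendental k (j : LaurentSeries k)
    rw [hj]
    exact htrj
  have hDj : KaehlerDifferential.D k F j ≠ 0 := D_ne_zero_of_sep j
  let b := Module.Free.chooseBasis ℤ (LZ N)
  have hli := linearIndependent_redL k p b
  have hb0 : ∀ i, redL k (b i) ≠ 0 := fun i => hli.ne_zero i
  choose w hwcoe hreg' using fun i => hreg (b i) (hb0 i)
  have hliw : LinearIndependent k w := by
    apply LinearIndependent.of_comp (mulTheta F)
    have : (mulTheta F) ∘ w = fun i => redL k (b i) := funext hwcoe
    rw [this]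
    exact hli
  have hcard : genusFF k F ≤ Fintype.card (Module.Free.ChooseBasisIndex ℤ (LZ N)) := by
    rwa [← Module.finrank_eq_card_chooseBasisIndex ℤ (LZ N)]
  have hfin : FiniteDimensional k⟮j⟯ F := IsFF.finite_adjoin j htr
  have hint : ∀ x : F, IsIntegral k⟮(j : LaurentSeries k)⟯ (x : LaurentSeries k) := fun x =>
    isIntegral_coe F j x (IsIntegral.of_finite _ _)
  have ht : Igusa.theta (j : LaurentSeries k) ≠ 0 := by rw [hj]; exact hθ
  have htr' : Transcendental k (j : LaurentSeries k) := by rw [hj]; exact htrj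
  have hmem := mem_span_of_reg hDj w hliw hreg' hcard
    (reg_der p hsep (thetaDer F j ht htr' hint) (thetaDer_self F j ht htr' hint) hf hd)
  have h2 := Submodule.mem_map_of_mem (f := mulTheta F) hmem
  rw [Submodule.map_span, ← Set.range_comp] at h2
  have h3 : Set.range ((mulTheta F) ∘ w) ⊆ Set.range (redL k (M := N)) := by
    rintro _ ⟨i, rfl⟩
    exact ⟨b i, (hwcoe i).symm⟩
  have h4 := Submodule.span_mono (R := k) h3 h2
  have h5 : mulTheta F (thetaDer F j ht htr' hint f / f) = -dlog (f : LaurentSeries k) := by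
    rw [mulTheta_apply]
    have h6 : ((thetaDer F j ht htr' hint f / f : F) : LaurentSeries k) =
        (Igusa.theta (f : LaurentSeries k) / Igusa.theta (j : LaurentSeries k)) /
          (f : LaurentSeries k) := rfl
    have hf' : (f : LaurentSeries k) ≠ 0 := fun h => hf (Subtype.ext h)
    rw [h6, dlog, hj]
    field_simp
  rw [h5] at h4
  have := Submodule.neg_mem _ h4
  rwa [neg_neg] at this

omit [IsAlgClosed k] [IsFF k F] [CharP k p] [Fact p.Prime] [NeZero N] in
theorem mulTheta_div (hj : (j : LaurentSeries k) = jqModC k) {u : F} {h : LaurentSeries k}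
    (hu : (u : LaurentSeries k) = uSer k h) : mulTheta F (u / (j * (j - 1728))) = h := by
  have hθ : Igusa.theta (jqModC k) ≠ 0 := Igusa.theta_jq_ne_zero k
  have h1 : ((u / (j * (j - 1728)) : F) : LaurentSeries k) =
      (u : LaurentSeries k) / ((j : LaurentSeries k) * ((j : LaurentSeries k) - 1728)) := rfl
  rw [mulTheta_apply, h1, hu, hj, uSer]
  have e1 := jq_ne_zero (k := k)
  have e2 := jq_sub_ne_zero (k := k)
  field_simp

theorem dlog_mem_span_abs (hj : (j : LaurentSeries k) = jqModC k)
    (hsep : Algebra.IsSeparable k⟮j⟯ F) (h1728 : (1728 : k) ≠ 0)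
    (hreg : ∀ h : LZ N, redL k h ≠ 0 → ∃ u : F,
      (u : LaurentSeries k) = uSer k (redL k h) ∧ CuspLike k j u)
    (hgen : genusFF k F ≤ finrank ℤ (LZ N)) {f : F} (hf : f ≠ 0)
    (hd : ∀ P : Place k F, (p : ℤ) ∣ P.ord f) :
    dlog (f : LaurentSeries k) ∈ Submodule.span k (Set.range (redL k (M := N))) := by
  have hθ : Igusa.theta (jqModC k) ≠ 0 := Igusa.theta_jq_ne_zero k
  have htrj : Transcendental k (jqModC k) := GaussVal.transcendental_jqModC k
  have htr : Transcendental k j := by
    rw [← transcendental_algebraMap_iff (algebraMap F (LaurentSeries k)).injective]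
    show Transcendental k (j : LaurentSeries k)
    rw [hj]
    exact htrj
  have hDj : KaehlerDifferential.D k F j ≠ 0 := D_ne_zero_of_sep j
  refine dlog_mem_span_of_reg p hj hsep (fun h h0 => ?_) hgen hf hd
  obtain ⟨u, hu, hcl⟩ := hreg h h0
  have hu0 : u ≠ 0 := by
    intro h'
    have h1 := hu
    rw [h', ZeroMemClass.coe_zero, uSer, eq_comm, div_eq_zero_iff, neg_eq_zero] at h1
    exact (mul_ne_zero (mul_ne_zero h0 jq_ne_zero) jq_sub_ne_zero)
      (h1.resolve_right hθ)
  exact ⟨_, mulTheta_div hj hu, Or.inr fun v => hcl.regular htr h1728 hu0 hDj v⟩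

end Abs

end Fermat.Agent.Dlog
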