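import Fermat.Agent.Dlog.CharZero
import Fermat.Agent.Dlog.Diff
import Fermat.Agent.GoodRed.Uncond
import Fermat.Agent.S20

/-!
# Logarithmic derivatives of functions with divisor divisible by `p` are cusp forms mod `p`
-/

set_option autoImplicit false

noncomputable section

open ModularCurve HahnSeries Module Polynomial AlgebraicCurve
open Fermat.Agent.X0Emb Fermat.Agent.GaussVal Fermat.Agent.Deuring Fermat.Agent.FF
open Fermat.Agent.GoodRed Fermat.Agent.S44w
open scoped MatrixGroups IntermediateField Fermat.Agent.GaussVal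

namespace Fermat.Agent.Dlog

section RedU

variable {K : Type*} [Field K] {A : ValuationSubring K}

theorem red_uSer (H : LaurentSeries A) :
    Red (gaussSubring A) (gaussRed A) (uSer K (incl A H))
      (uSer (IsLocalRing.ResidueField A) (redS A H)) := by
  have hj : incl A (jqModC A) = jqModC K := map_jqModC _
  have hj' : redS A (jqModC A) = jqModC (IsLocalRing.ResidueField A) := map_jqModC _
  have hY : redS A (Igusa.theta (jqModC A)) = Igusa.theta (jqModC (IsLocalRing.ResidueField A)) := by
    rw [Igusa.coeffMap_theta, hj']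
  have hY0 : redS A (Igusa.theta (jqModC A)) ≠ 0 := by
    rw [hY]; exact Igusa.theta_jq_ne_zero _
  have hK : incl A (Igusa.theta (jqModC A)) = Igusa.theta (jqModC K) := by
    rw [Igusa.coeffMap_theta, hj]
  have hK0 : Igusa.theta (jqModC K) ≠ 0 := Igusa.theta_jq_ne_zero _
  have hy : uSer K (incl A H) * incl A (Igusa.theta (jqModC A)) =
      incl A (-(H * jqModC A * (jqModC A - 1728))) := by
    rw [hK, uSer, div_mul_cancel₀ _ hK0, map_neg, map_mul, map_mul, map_sub, hj, map_ofNat]
  have hmem : uSer K (incl A H) ∈ gaussSubring A := mem_gaussSubring.mpr ⟨_, _, hY0, hy⟩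
  refine ⟨hmem, ?_⟩
  rw [gaussRed_eq (y := ⟨_, hmem⟩) hY0 hy, hY, uSer, map_neg, map_mul, map_mul, map_sub, hj',
    map_ofNat]

/-- the lattice over `A` -/
def redA (A : ValuationSubring K) {M : ℕ} (h : LZ M) : LaurentSeries A :=
  HahnSeries.ofPowerSeries ℤ A (PowerSeries.mk fun n => ((coefZ n h : ℤ) : A))

theorem incl_redA {M : ℕ} (h : LZ M) : incl A (redA A h) = redL K h := by
  rw [redA, redL_apply, ModularCurve.coeffMap_ofPowerSeries]
  congr 1

theorem redS_redA {M : ℕ} (h : LZ M) : redS A (redA A h) =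
    redL (IsLocalRing.ResidueField A) h := by
  rw [redA, redL_apply, ModularCurve.coeffMap_ofPowerSeries]
  congr 1

theorem red_uSer' {M : ℕ} (h : LZ M) :
    Red (gaussSubring A) (gaussRed A) (uSer K (redL K h))
      (uSer (IsLocalRing.ResidueField A) (redL (IsLocalRing.ResidueField A) h)) := by
  have := red_uSer (redA A h)
  rwa [incl_redA, redS_redA] at this

end RedU

section U

variable {N : ℕ} [NeZero N]

omit [NeZero N] in
theorem lexp_U (h : LZ N) : LExp 1 (UFun (h : CuspForm (CongruenceSubgroup.Gamma0 N) 2))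
    (coeffMap iota (uSer X0Emb.KK (redL X0Emb.KK h))) := by
  rw [coeffMap_uSer]
  have h1 : coeffMap iota (redL X0Emb.KK h) =
      HahnSeries.ofPowerSeries ℤ ℂ (UpperHalfPlane.qExpansion 1
        (h : CuspForm (CongruenceSubgroup.Gamma0 N) 2)) := by
    rw [redL_apply, ModularCurve.coeffMap_ofPowerSeries]
    congr 1
    ext n
    rw [PowerSeries.coeff_map, PowerSeries.coeff_mk, map_intCast, coefZ_spec]
    rfl
  rw [h1]
  exact lexp_UFun _

theorem mem_bar_of_lexp (f : CuspForm (CongruenceSubgroup.Gamma0 N) 2)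
    {G : LaurentSeries X0Emb.KK} (hG : LExp 1 (UFun f) (coeffMap iota G)) :
    G ∈ modularFunctionFieldBar N :=
  ModFun.mem_modularFunctionFieldBar N iota (UFun_mdiff f.holo')
    (fun γ hγ τ => UFun_inv f γ hγ τ) (UFun_growth f) hG

theorem uSer_mem (h : LZ N) : uSer X0Emb.KK (redL X0Emb.KK h) ∈ modularFunctionFieldBar N :=
  mem_bar_of_lexp _ (lexp_U h)

/-- `u_h` -/
def uEl (h : LZ N) : modularFunctionFieldBar N := ⟨_, uSer_mem h⟩

theorem cuspLike_uEl (h : LZ N) (h0 : h ≠ 0) :
    CuspLike X0Emb.KK (embData N).jF (uEl h) :=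
  cuspLike_of_form (h : CuspForm (CongruenceSubgroup.Gamma0 N) 2)
    (fun h1 => h0 (Subtype.ext h1)) (lexp_U h)

end U

end Fermat.Agent.Dlog
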